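import Fermat.Agent.Factorisation.Davenport
import Mathlib.Algebra.MonoidAlgebra.Basic
import Mathlib.Algebra.CharP.Algebra
import Mathlib.RingTheory.Ideal.Operations
import Mathlib.GroupTheory.FiniteAbelian.Basic
import Mathlib.GroupTheory.PGroup
import Mathlib.Algebra.Field.ZMod
import Mathlib.Tactic

/-!
# Olson's theorem

In the group algebra over `ZMod p` the product `∏ (1 - g)` over a long sequence vanishes, as the
augmentation ideal is generated by nilpotent elements; its coefficient at `1` counts the
product-one subsequences.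
-/

set_option autoImplicit false

noncomputable section

open Finset FA.Factorisation

namespace FA.Olson

/-- A long product of elements of an ideal with nilpotent generators vanishes. -/
theorem prod_eq_zero_of_nilpotent {A κ ι : Type*} [CommRing A] [Fintype κ] [Fintype ι] (x : κ → A)
    (q : κ → ℕ) (hx : ∀ i, x i ^ q i = 0) (y : ι → A)
    (hy : ∀ j, y j ∈ Ideal.span (Set.range x)) (hlt : ∑ i, (q i - 1) < Fintype.card ι) :
    ∏ j, y j = 0 := by
  classical
  choose a ha using fun j => Ideal.mem_span_range_iff_exists_fun.1 (hy j)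
  rw [← prod_congr rfl fun j _ => ha j, prod_univ_sum]
  refine sum_eq_zero fun φ _ => ?_
  rw [prod_mul_distrib]
  obtain ⟨i, hi⟩ : ∃ i, q i ≤ #{j | φ j = i} := by
    by_contra! h
    have := card_eq_sum_card_fiberwise (f := φ) (s := univ) (t := univ) fun j _ => mem_univ _
    have := sum_le_sum (s := univ) fun i _ => Nat.le_sub_one_of_lt (h i)
    rw [card_univ] at *
    omega
  refine mul_eq_zero_of_right _ ?_
  rw [← prod_fiberwise univ φ, prod_eq_zero (mem_univ i)]
  rw [prod_congr rfl fun j hj => congrArg x (mem_filter.1 hj).2, prod_const]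
  exact pow_eq_zero_of_le hi (hx i)

variable {p : ℕ} [Fact p.Prime] {G κ : Type*} [CommGroup G] [Fintype κ] (b : κ → G) (e : κ → ℕ)

/-- **The upper bound.** -/
theorem exists_prod_eq_one (hb : ∀ g, g ∈ Subgroup.closure (Set.range b))
    (he : ∀ i, b i ^ p ^ e i = 1) {ι : Type*} [Fintype ι] (g : ι → G)
    (hlt : ∑ i, (p ^ e i - 1) < Fintype.card ι) :
    ∃ t : Finset ι, t.Nonempty ∧ ∏ j ∈ t, g j = 1 := by
  classical
  let A := MonoidAlgebra (ZMod p) G
  have : CharP A p := charP_of_injective_algebraMap
    (R := ZMod p) (MonoidAlgebra.singleOneRingHom (R := ZMod p) (M := G)).injective p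
  let of : G →* A := MonoidAlgebra.of (ZMod p) G
  let x : κ → A := fun i => 1 - of (b i)
  have hx : ∀ i, x i ^ p ^ e i = 0 := fun i => by
    rw [sub_pow_char_pow, one_pow, ← map_pow, he, map_one, sub_self]
  have hmem : ∀ h : G, 1 - of h ∈ Ideal.span (Set.range x) := by
    let H : Subgroup G :=
      { carrier := {h : G | (1 - of h : A) ∈ (Ideal.span (Set.range x) : Ideal A)}
        one_mem' := by simp [map_one]
        mul_mem' := fun {u v} hu hv => by
          show (1 - of (u * v) : A) ∈ Ideal.span (Set.range x)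
          rw [map_mul, show 1 - of u * of v = (1 - of u) + of u * (1 - of v) by ring]
          exact Ideal.add_mem _ hu (Ideal.mul_mem_left _ _ hv)
        inv_mem' := fun {u} hu => by
          show (1 - of u⁻¹ : A) ∈ Ideal.span (Set.range x)
          rw [show 1 - of u⁻¹ = -of u⁻¹ * (1 - of u) by
            rw [mul_sub, mul_one, neg_mul, ← map_mul, inv_mul_cancel, map_one]; ring]
          exact Ideal.mul_mem_left _ _ hu }
    have hle : Subgroup.closure (Set.range b) ≤ H := (Subgroup.closure_le H).2 fun _ ⟨i, hi⟩ =>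
      hi ▸ Ideal.subset_span ⟨i, rfl⟩
    exact fun h => hle (hb h)
  have h0 := prod_eq_zero_of_nilpotent x (fun i => p ^ e i) hx (fun j => 1 - of (g j))
    (fun j => hmem _) hlt
  by_contra! hno
  have h1 := congrArg (fun z : A => z.coeff 1) h0
  simp only [sub_eq_add_neg, prod_one_add, prod_neg, ← map_prod] at h1
  have hc : ∀ t : Finset ι, ((-1 : A) ^ #t * of (∏ j ∈ t, g j)).coeff 1 =
      if ∏ j ∈ t, g j = 1 then (-1 : ZMod p) ^ #t else 0 := fun t => by
    rw [show (-1 : A) ^ #t = MonoidAlgebra.singleOneRingHom ((-1 : ZMod p) ^ #t) by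
      rw [map_pow, map_neg, map_one]]
    simp [A, of, MonoidAlgebra.singleOneRingHom, Finsupp.single_apply]
  rw [MonoidAlgebra.coeff_sum, Finsupp.finsetSum_apply, sum_congr rfl fun t _ => hc t,
    sum_eq_single_of_mem ∅ (empty_mem_powerset _)
      (fun t _ ht => if_neg (hno t (nonempty_iff_ne_empty.2 ht)))] at h1
  simp at h1

theorem exists_minimal_le {s : Multiset G} (hb : ∀ g, g ∈ Subgroup.closure (Set.range b))
    (he : ∀ i, b i ^ p ^ e i = 1) (hs : IsMinimalProdOne s) :
    Multiset.card s ≤ ∑ i, (p ^ e i - 1) + 1 := by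
  classical
  by_contra! hlt
  obtain ⟨a, u, rfl⟩ : ∃ a u, s = a ::ₘ u := by
    obtain ⟨a, ha⟩ := Multiset.card_pos_iff_exists_mem.1 (show 0 < Multiset.card s by omega)
    exact ⟨a, Multiset.exists_cons_of_mem ha⟩
  rw [Multiset.card_cons] at hlt
  obtain ⟨t, hne, ht⟩ := exists_prod_eq_one b e hb he (fun j : Fin u.toList.length => u.toList[j])
    (by rw [Fintype.card_fin, Multiset.length_toList]; omega)
  have hle : t.val.map (fun j : Fin u.toList.length => u.toList[j]) ≤ u := by
    refine (Multiset.map_le_map (val_le_iff.2 (subset_univ t))).trans_eq ?_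
    rw [Fin.univ_val_map]
    exact (congrArg _ List.ofFn_getElem).trans (Multiset.coe_toList u)
  rcases hs.minimal _ (hle.trans (Multiset.le_cons_self u a)) ht with h | h
  · rw [Multiset.map_eq_zero, val_eq_zero] at h
    exact hne.ne_empty h
  · have := congrArg Multiset.card h
    have := Multiset.card_le_card hle
    rw [Multiset.card_cons] at *
    omega

/-- A product-one family without a proper nonempty product-one part. -/
theorem isMinimalProdOne_univ {α : Type*} [Fintype α] [Nonempty α] (h : α → G)
    (h1 : ∏ a, h a = 1) (hmin : ∀ T : Finset α, ∏ a ∈ T, h a = 1 → T = ∅ ∨ T = univ) :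
    IsMinimalProdOne ((univ : Finset α).val.map h) where
  ne_zero e' := univ_nonempty.ne_empty (val_eq_zero.1 (Multiset.map_eq_zero.1 e'))
  prod_eq := h1
  minimal t ht htp := by
    obtain ⟨u, hu, rfl⟩ := exists_le_map_eq h ht
    let T : Finset α := ⟨u, Multiset.nodup_of_le hu univ.nodup⟩
    rcases hmin T htp with hT | hT
    · exact Or.inl (by rw [show u = 0 from congrArg Finset.val hT, Multiset.map_zero])
    · exact Or.inr (by rw [show u = univ.val from congrArg Finset.val hT])

variable {e}

/-- The product of cyclic `p`-groups. -/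
abbrev PrimaryGroup (p : ℕ) {κ : Type*} (e : κ → ℕ) : Type _ :=
  Multiplicative (∀ i, ZMod (p ^ e i))

/-- The `i`-th generator. -/
def gen [DecidableEq κ] (p : ℕ) (e : κ → ℕ) (i : κ) : PrimaryGroup p e :=
  Multiplicative.ofAdd (Pi.single i 1)

omit [Fact p.Prime] in
theorem gen_generates [DecidableEq κ] (g : PrimaryGroup p e) :
    g ∈ Subgroup.closure (Set.range (gen p e)) := by
  have : g = ∏ i, gen p e i ^ ((g.toAdd i).cast : ℤ) := by
    refine Multiplicative.toAdd.injective (funext fun j => ?_)
    simp only [toAdd_prod, toAdd_zpow, gen, toAdd_ofAdd, Finset.sum_apply, Pi.smul_apply]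
    rw [sum_eq_single j (fun i _ hi => by rw [Pi.single_eq_of_ne hi.symm, smul_zero]) (by simp),
      Pi.single_eq_same, zsmul_one, ZMod.intCast_zmod_cast]
  rw [this]
  exact prod_mem fun i _ => Subgroup.zpow_mem _ (Subgroup.subset_closure (Set.mem_range_self i)) _

omit [Fact p.Prime] [Fintype κ] in
theorem gen_pow [DecidableEq κ] (i : κ) : gen p e i ^ p ^ e i = 1 := by
  rw [gen, ← ofAdd_nsmul, ← Pi.single_smul, nsmul_one, ZMod.natCast_self, Pi.single_zero,
    ofAdd_zero]

/-- The extremal family. -/
def extremal [DecidableEq κ] (p : ℕ) (e : κ → ℕ) :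
    Option (Σ i, Fin (p ^ e i - 1)) → PrimaryGroup p e
  | none => Multiplicative.ofAdd 1
  | some x => gen p e x.1

omit [Fact p.Prime] [Fintype κ] in
theorem toAdd_extremal [DecidableEq κ] (T : Finset (Option (Σ i, Fin (p ^ e i - 1)))) (j : κ) :
    (∏ a ∈ T, extremal p e a).toAdd j =
      (#{x ∈ eraseNone T | x.1 = j} : ZMod (p ^ e j)) + (if none ∈ T then 1 else 0) := by
  classical
  induction T using Finset.induction_on with
  | empty => simp
  | @insert a T ha ih =>
    rw [prod_insert ha, toAdd_mul, Pi.add_apply, ih]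
    cases a with
    | none =>
      have : eraseNone (insert none T) = eraseNone T := by ext x; simp
      simp [extremal, this, ha, add_comm]
    | some x =>
      have : eraseNone (insert (some x) T) = insert x (eraseNone T) := by ext y; simp
      rw [this, filter_insert]
      rcases eq_or_ne x.1 j with h | h
      · subst h
        rw [if_pos rfl, card_insert_of_notMem (by simp [ha])]
        simp [extremal, gen]
        ring
      · simp [extremal, gen, h, h.symm]

theorem isMinimal_extremal [DecidableEq κ] :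
    IsMinimalProdOne
      ((univ : Finset (Option (Σ i, Fin (p ^ e i - 1)))).val.map (extremal p e)) := by
  classical
  have hpos : ∀ i, 0 < p ^ e i := fun i => pow_pos (Fact.out : p.Prime).pos _
  have hfib : ∀ j, #{x ∈ (univ : Finset (Σ i, Fin (p ^ e i - 1))) | x.1 = j} = p ^ e j - 1 := by
    intro j
    rw [show ({x ∈ (univ : Finset (Σ i, Fin (p ^ e i - 1))) | x.1 = j}) =
      univ.map (Function.Embedding.sigmaMk j) by
        ext ⟨i, k⟩
        simp only [mem_filter, mem_univ, true_and, mem_map, Function.Embedding.sigmaMk_apply]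
        constructor
        · rintro rfl
          exact ⟨k, rfl⟩
        · rintro ⟨a, h⟩
          exact (congrArg Sigma.fst h).symm,
      card_map, card_univ,
      Fintype.card_fin]
  refine isMinimalProdOne_univ _ (Multiplicative.toAdd.injective (funext fun j => ?_)) ?_
  · rw [toAdd_extremal, if_pos (mem_univ _),
      show eraseNone (univ : Finset (Option (Σ i, Fin (p ^ e i - 1)))) = univ by ext x; simp,
      hfib, ← Nat.cast_one (R := ZMod (p ^ e j)), ← Nat.cast_add, Nat.sub_add_cancel (hpos j),
      ZMod.natCast_self, toAdd_one, Pi.zero_apply]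
  intro T hT
  have hle : ∀ j, #{x ∈ eraseNone T | x.1 = j} ≤ p ^ e j - 1 := fun j =>
    (card_le_card (filter_subset_filter _ (subset_univ _))).trans_eq (hfib j)
  have heq : ∀ j, (#{x ∈ eraseNone T | x.1 = j} : ZMod (p ^ e j)) +
      (if none ∈ T then 1 else 0) = 0 := fun j => by
    rw [← toAdd_extremal, hT, toAdd_one, Pi.zero_apply]
  by_cases hn : none ∈ T
  · refine Or.inr (eq_univ_of_forall ?_)
    rintro (_ | x)
    · exact hn
    have h := heq x.1
    rw [if_pos hn, ← Nat.cast_one (R := ZMod (p ^ e x.1)), ← Nat.cast_add,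
      ZMod.natCast_eq_zero_iff] at h
    have := Nat.le_of_dvd (Nat.succ_pos _) h
    have := hle x.1
    have := hpos x.1
    have hall : {y ∈ eraseNone T | y.1 = x.1} =
        {y ∈ (univ : Finset (Σ i, Fin (p ^ e i - 1))) | y.1 = x.1} :=
      eq_of_subset_of_card_le (filter_subset_filter _ (subset_univ _)) (by rw [hfib]; omega)
    have hx : x ∈ ({y | y.1 = x.1} : Finset (Σ i, Fin (p ^ e i - 1))) := by simp
    rw [← hall, mem_filter, mem_eraseNone] at hx
    exact hx.1
  · refine Or.inl (eq_empty_of_forall_notMem ?_)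
    rintro (_ | x)
    · exact hn
    intro hx
    have h := heq x.1
    rw [if_neg hn, add_zero, ZMod.natCast_eq_zero_iff] at h
    have hpos' : 0 < #{y ∈ eraseNone T | y.1 = x.1} := card_pos.2 ⟨x, by simp [hx]⟩
    have := Nat.le_of_dvd hpos' h
    have := hle x.1
    have := hpos x.1
    omega

/-- **Olson's theorem.** -/
theorem davenport_eq [DecidableEq κ] :
    davenport (PrimaryGroup p e) = 1 + ∑ i, (p ^ e i - 1) := by
  classical
  have : NeZero p := ⟨(Fact.out : p.Prime).ne_zero⟩
  have hcard : Fintype.card (Option (Σ i, Fin (p ^ e i - 1))) = ∑ i, (p ^ e i - 1) + 1 := by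
    simp [Fintype.card_option]
  refine le_antisymm ?_ ?_
  · obtain ⟨s, hs, hse⟩ := exists_card_eq_davenport (PrimaryGroup p e)
    rw [← hse, add_comm]
    exact exists_minimal_le (gen p e) e gen_generates gen_pow hs
  · have := card_le_davenport (isMinimal_extremal (p := p) (e := e))
    rw [Multiset.card_map, card_val, card_univ, hcard] at this
    omega

theorem card_le_davenport_of_equiv {G H : Type*} [CommGroup G] [CommGroup H] [Finite H]
    (φ : G ≃* H) {s : Multiset G} (hs : IsMinimalProdOne s) :
    Multiset.card s ≤ davenport H := by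
  rw [← Multiset.card_map φ s]
  refine card_le_davenport ⟨fun h => hs.ne_zero (Multiset.map_eq_zero.1 h), ?_, fun t ht htp => ?_⟩
  · rw [← map_multiset_prod, hs.prod_eq, map_one]
  · obtain ⟨u, hu, rfl⟩ := exists_le_map_eq φ ht
    rw [← map_multiset_prod, map_eq_one_iff φ φ.injective] at htp
    rcases hs.minimal u hu htp with rfl | rfl
    exacts [Or.inl (Multiset.map_zero _), Or.inr rfl]

theorem davenport_congr {G H : Type*} [CommGroup G] [CommGroup H] [Finite G] [Finite H]
    (φ : G ≃* H) : davenport G = davenport H := by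
  refine le_antisymm ?_ ?_
  · obtain ⟨s, hs, hse⟩ := exists_card_eq_davenport G
    exact hse ▸ card_le_davenport_of_equiv φ hs
  · obtain ⟨s, hs, hse⟩ := exists_card_eq_davenport H
    exact hse ▸ card_le_davenport_of_equiv φ.symm hs

/-- Finite abelian `p`-groups are products of cyclic ones. -/
theorem exists_primary {G : Type*} [CommGroup G] [Finite G] (hG : IsPGroup p G) :
    ∃ (r : ℕ) (e : Fin r → ℕ), Nonempty (G ≃* PrimaryGroup p e) := by
  classical
  obtain ⟨ι, _, n, hn, ⟨φ⟩⟩ := CommGroup.equiv_prod_multiplicative_zmod_of_finite G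
  have : ∀ i, NeZero (n i) := fun i => ⟨by have := hn i; omega⟩
  have hpow : ∀ i, ∃ k, n i = p ^ k := fun i => by
    have h := hG.of_injective ((φ.symm.toMonoidHom).comp
      (MonoidHom.mulSingle (fun i => Multiplicative (ZMod (n i))) i))
      (fun _ _ h => Pi.mulSingle_injective i (φ.symm.injective h))
    obtain ⟨k, hk⟩ := h.exists_card_eq
    exact ⟨k, by rwa [Nat.card_congr Multiplicative.toAdd, Nat.card_zmod] at hk⟩
  choose k hk using hpow
  let σ := Fintype.equivFin ι
  refine ⟨Fintype.card ι, k ∘ σ.symm, ⟨φ.trans ?_⟩⟩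
  refine ((MulEquiv.piCongrRight fun i => AddEquiv.toMultiplicative
    (ZMod.ringEquivCongr (hk i)).toAddEquiv).trans ?_).trans
      ((MulEquiv.piMultiplicative _).symm)
  exact { Equiv.piCongrLeft' (fun i => Multiplicative (ZMod (p ^ k i))) σ with
    map_mul' := fun _ _ => rfl }

end FA.Olson

end
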